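import Fermat.Agent.MUL.Orig.S05.H65.Sym
import Fermat.Agent.MUL.S49.H91StepC

/-!
# The kernel of reduction of a Weierstrass curve has no torsion prime to the residue characteristic

Elementary proof through the x-coordinate sum/product formulas, using the function `t = 1/x`.
-/

set_option autoImplicit false
set_option linter.unusedSectionVars false

namespace S05H75

open WeierstrassCurve S05H65

section Algebra

variable {K : Type*} [Field K] [DecidableEq K] {W : WeierstrassCurve.Affine K}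

/-- The function `1/x` on points (`0` at infinity). -/
noncomputable def pt (P : W.Point) : K := (px P)⁻¹

@[simp] lemma pt_zero : pt (0 : W.Point) = 0 := by simp [pt]

@[simp] lemma pt_neg (P : W.Point) : pt (-P) = pt P := by simp [pt]

/-- A point is "good" if it is the origin or has nonzero x-coordinate. -/
def Good (P : W.Point) : Prop := P = 0 ∨ px P ≠ 0

lemma good_zero : Good (0 : W.Point) := Or.inl rfl

lemma good_neg {P : W.Point} (h : Good P) : Good (-P) := by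
  rcases h with h | h
  · left; rw [h, neg_zero]
  · right; rwa [px_neg]

/-- denominator polynomial in the `t`-coordinates -/
def MPoly (W : WeierstrassCurve.Affine K) (t₁ t₂ : K) : K :=
  1 - W.b₄ * t₁ * t₂ - W.b₆ * (t₁ + t₂) * t₁ * t₂ - W.b₈ * t₁ ^ 2 * t₂ ^ 2

/-- numerator polynomial of the sum in the `t`-coordinates -/
def SPoly (W : WeierstrassCurve.Affine K) (t₁ t₂ : K) : K :=
  2 * (t₁ + t₂) + W.b₂ * t₁ * t₂ + W.b₄ * (t₁ + t₂) * t₁ * t₂ + W.b₆ * t₁ ^ 2 * t₂ ^ 2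

lemma MPoly_zero_left (t : K) : MPoly W 0 t = 1 := by simp [MPoly]
lemma MPoly_zero_right (t : K) : MPoly W t 0 = 1 := by simp [MPoly]
lemma SPoly_zero_left (t : K) : SPoly W 0 t = 2 * t := by simp [SPoly]
lemma SPoly_zero_right (t : K) : SPoly W t 0 = 2 * t := by simp [SPoly]

/-- the doubling case -/
lemma pt_double {P : W.Point} (hP : P ≠ 0) (hx : px P ≠ 0)
    (hM : MPoly W (pt P) (pt P) ≠ 0) :
    Good (P + P) ∧ pt (P + P) * MPoly W (pt P) (pt P) = SPoly W (pt P) (pt P) := by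
  have hMP : MPoly W (pt P) (pt P) * px P ^ 4 = dupNum W (px P) := by
    simp only [MPoly, pt, dupNum]
    field_simp
    ring
  have hSP : SPoly W (pt P) (pt P) * px P ^ 4 = psi2sq W (px P) := by
    simp only [SPoly, pt, psi2sq]
    field_simp
    ring
  have hx4 : px P ^ 4 ≠ 0 := pow_ne_zero 4 hx
  have hN : dupNum W (px P) ≠ 0 := by
    rw [← hMP]; exact mul_ne_zero hM hx4
  by_cases h2 : P + P = 0
  · refine ⟨Or.inl h2, ?_⟩
    have hpsi := (add_self_eq_zero_iff hP).mp h2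
    rw [h2, pt_zero, zero_mul]
    have : SPoly W (pt P) (pt P) * px P ^ 4 = 0 := by rw [hSP, hpsi]
    rcases mul_eq_zero.mp this with h | h
    · exact h.symm
    · exact absurd h hx4
  · have hdup := px_add_self hP h2
    have hx2 : px (P + P) ≠ 0 := by
      intro h0
      rw [h0, zero_mul] at hdup
      exact hN hdup.symm
    refine ⟨Or.inr hx2, ?_⟩
    apply mul_right_cancel₀ hx4
    rw [mul_assoc, hMP, hSP, ← hdup, pt]
    field_simp

/-- The uniform sum/product identities for `t = 1/x`. -/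
theorem pt_add_sub (P Q : W.Point) (hP : Good P) (hQ : Good Q)
    (hM : MPoly W (pt P) (pt Q) ≠ 0) :
    Good (P + Q) ∧ Good (P - Q) ∧
      (pt (P + Q) + pt (P - Q)) * MPoly W (pt P) (pt Q) = SPoly W (pt P) (pt Q) ∧
      pt (P + Q) * pt (P - Q) * MPoly W (pt P) (pt Q) = (pt P - pt Q) ^ 2 := by
  by_cases hP0 : P = 0
  · subst hP0
    simp only [zero_add, zero_sub, pt_zero, pt_neg, MPoly_zero_left, SPoly_zero_left, mul_one]
    exact ⟨hQ, good_neg hQ, by ring, by ring⟩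
  by_cases hQ0 : Q = 0
  · subst hQ0
    simp only [add_zero, sub_zero, pt_zero, MPoly_zero_right, SPoly_zero_right, mul_one]
    exact ⟨hP, hP, by ring, by ring⟩
  have hx₁ : px P ≠ 0 := hP.resolve_left hP0
  have hx₂ : px Q ≠ 0 := hQ.resolve_left hQ0
  by_cases hx : px P = px Q
  · -- P = ± Q
    have hpt : pt Q = pt P := by simp [pt, hx]
    rw [hpt] at hM ⊢
    obtain ⟨hG, hD⟩ := pt_double hP0 hx₁ hM
    rcases eq_or_eq_neg_of_px_eq hP0 hQ0 hx with h | h
    · subst h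
      simp only [sub_self, pt_zero, add_zero, mul_zero, zero_mul]
      exact ⟨hG, good_zero, hD, by ring⟩
    · have hQ' : Q = -P := by rw [h, neg_neg]
      subst hQ'
      simp only [add_neg_cancel, sub_neg_eq_add, pt_zero, zero_add, zero_mul, sub_self]
      exact ⟨good_zero, hG, hD, by ring⟩
  · have hS := px_add_add_px_sub hP0 hQ0 hx
    have hPr := px_add_mul_px_sub hP0 hQ0 hx
    have hd : (px P - px Q) ^ 2 ≠ 0 := pow_ne_zero 2 (sub_ne_zero.mpr hx)
    have hMP : MPoly W (pt P) (pt Q) * (px P ^ 2 * px Q ^ 2) =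
        px P ^ 2 * px Q ^ 2 - W.b₄ * px P * px Q - W.b₆ * (px P + px Q) - W.b₈ := by
      simp only [MPoly, pt]
      field_simp
      ring
    have hSP : SPoly W (pt P) (pt Q) * (px P ^ 2 * px Q ^ 2) =
        2 * px P * px Q * (px P + px Q) + W.b₂ * px P * px Q + W.b₄ * (px P + px Q)
          + W.b₆ := by
      simp only [SPoly, pt]
      field_simp
      ring
    have hxx : px P ^ 2 * px Q ^ 2 ≠ 0 := mul_ne_zero (pow_ne_zero 2 hx₁) (pow_ne_zero 2 hx₂)
    have hN2 : px (P + Q) * px (P - Q) ≠ 0 := by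
      intro h0
      rw [h0, zero_mul, ← hMP] at hPr
      exact (mul_ne_zero hM hxx) hPr.symm
    have hx₃ : px (P + Q) ≠ 0 := left_ne_zero_of_mul hN2
    have hx₄ : px (P - Q) ≠ 0 := right_ne_zero_of_mul hN2
    refine ⟨Or.inr hx₃, Or.inr hx₄, ?_, ?_⟩
    · apply mul_right_cancel₀ hxx
      rw [mul_assoc, hMP, hSP, ← hS, ← hPr]
      simp only [pt]
      field_simp
      ring
    · apply mul_right_cancel₀ hxx
      rw [mul_assoc, hMP, ← hPr]
      simp only [pt]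
      field_simp
      ring

end Algebra

section Val

variable {K : Type*} [Field K] [DecidableEq K] {Γ₀ : Type*} [LinearOrderedCommGroupWithZero Γ₀]
  (v : Valuation K Γ₀) {W : WeierstrassCurve.Affine K}

/-- The kernel of reduction: the origin together with the points with non-integral `x`. -/
def InG1 (P : W.Point) : Prop := P = 0 ∨ 1 < v (px P)

omit [DecidableEq K] in
lemma val_le_mul {a x : K} {g : Γ₀} (ha : v a ≤ 1) (hx : v x ≤ g) : v (a * x) ≤ g := by
  rw [map_mul]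
  calc v a * v x ≤ 1 * g := mul_le_mul' ha hx
    _ = g := one_mul g

omit [DecidableEq K] in
lemma val_mul_le_mul {x y : K} {g h : Γ₀} (hx : v x ≤ g) (hy : v y ≤ h) : v (x * y) ≤ g * h := by
  rw [map_mul]
  exact mul_le_mul' hx hy

omit [DecidableEq K] in
lemma val_two_le : v (2 : K) ≤ 1 := by
  have : (2 : K) = 1 + 1 := by norm_num
  rw [this]
  exact v.map_add_le (le_of_eq v.map_one) (le_of_eq v.map_one)

omit [DecidableEq K] in
lemma val_natCast_le (n : ℕ) : v (n : K) ≤ 1 := by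
  induction n with
  | zero => simp
  | succ n ih =>
    rw [Nat.cast_succ]
    exact v.map_add_le ih (le_of_eq v.map_one)

lemma inG1_iff (P : W.Point) : InG1 v P ↔ Good P ∧ v (pt P) < 1 := by
  unfold InG1 Good pt
  constructor
  · rintro (h | h)
    · subst h; simp
    · have hx : px P ≠ 0 := by
        intro h0; rw [h0, map_zero] at h; exact not_lt.mpr zero_le h
      refine ⟨Or.inr hx, ?_⟩
      rw [map_inv₀]
      exact inv_lt_one_of_one_lt₀ h
  · rintro ⟨h | h, h2⟩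
    · exact Or.inl h
    · right
      rw [map_inv₀] at h2
      have hv : v (px P) ≠ 0 := (Valuation.ne_zero_iff v).mpr h
      exact (inv_lt_one₀ (zero_lt_iff.mpr hv)).mp h2

omit v in
lemma sq_le_self_of_le_one {c : Γ₀} (hc : c ≤ 1) : c ^ 2 ≤ c := by
  rw [pow_two]
  calc c * c ≤ 1 * c := mul_le_mul' hc le_rfl
    _ = c := one_mul c

/-- `G1` is stable under negation. -/
theorem inG1_neg {P : W.Point} (hP : InG1 v P) : InG1 v (-P) := by
  rcases hP with h | h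
  · left; rw [h, neg_zero]
  · right; rwa [px_neg]

section Core

variable (hb₂ : v W.b₂ ≤ 1) (hb₄ : v W.b₄ ≤ 1) (hb₆ : v W.b₆ ≤ 1) (hb₈ : v W.b₈ ≤ 1)
include hb₄ hb₆ hb₈

lemma val_MPoly {c : Γ₀} (hc : c < 1) {t₁ t₂ : K} (h₁ : v t₁ ≤ c) (h₂ : v t₂ ≤ c) :
    v (MPoly W t₁ t₂) = 1 := by
  have hc1 : c ≤ 1 := hc.le
  have h1' : v t₁ ≤ 1 := h₁.trans hc1
  have h2' : v t₂ ≤ 1 := h₂.trans hc1
  have h12 : v (t₁ * t₂) ≤ c := by
    rw [mul_comm]; exact val_le_mul v h2' h₁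
  have hsum : v (t₁ + t₂) ≤ 1 := v.map_add_le h1' h2'
  have e : MPoly W t₁ t₂ = 1 - (W.b₄ * (t₁ * t₂) + W.b₆ * ((t₁ + t₂) * (t₁ * t₂))
      + W.b₈ * ((t₁ * t₂) * (t₁ * t₂))) := by
    simp only [MPoly]; ring
  rw [e]
  apply Valuation.map_one_sub_of_lt
  refine lt_of_le_of_lt ?_ hc
  refine v.map_add_le (v.map_add_le ?_ ?_) ?_
  · exact val_le_mul v hb₄ h12
  · exact val_le_mul v hb₆ (val_le_mul v hsum h12)
  · exact val_le_mul v hb₈ (val_le_mul v (h12.trans hc1) h12)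

include hb₂

lemma val_SPoly_sub {c : Γ₀} (hc : c < 1) {t₁ t₂ : K} (h₁ : v t₁ ≤ c) (h₂ : v t₂ ≤ c) :
    v (SPoly W t₁ t₂ - 2 * (t₁ + t₂) * MPoly W t₁ t₂) ≤ c ^ 2 := by
  have hc1 : c ≤ 1 := hc.le
  have h1' : v t₁ ≤ 1 := h₁.trans hc1
  have h2' : v t₂ ≤ 1 := h₂.trans hc1
  have h12 : v (t₁ * t₂) ≤ c ^ 2 := by
    rw [pow_two]; exact val_mul_le_mul v h₁ h₂
  have h12' : v (t₁ * t₂) ≤ 1 := by
    rw [map_mul]
    calc v t₁ * v t₂ ≤ 1 * 1 := mul_le_mul' h1' h2'
      _ = 1 := one_mul 1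
  have hsum : v (t₁ + t₂) ≤ 1 := v.map_add_le h1' h2'
  have h2 := val_two_le v
  have e : SPoly W t₁ t₂ - 2 * (t₁ + t₂) * MPoly W t₁ t₂ =
      W.b₂ * (t₁ * t₂) + W.b₄ * ((t₁ + t₂) * (t₁ * t₂)) + W.b₆ * ((t₁ * t₂) * (t₁ * t₂))
      + 2 * ((t₁ + t₂) * (W.b₄ * (t₁ * t₂) + W.b₆ * ((t₁ + t₂) * (t₁ * t₂))
        + W.b₈ * ((t₁ * t₂) * (t₁ * t₂)))) := by
    simp only [SPoly, MPoly]; ring
  rw [e]
  refine v.map_add_le (v.map_add_le (v.map_add_le ?_ ?_) ?_) ?_
  · exact val_le_mul v hb₂ h12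
  · exact val_le_mul v hb₄ (val_le_mul v hsum h12)
  · exact val_le_mul v hb₆ (val_le_mul v h12' h12)
  · refine val_le_mul v h2 (val_le_mul v hsum ?_)
    refine v.map_add_le (v.map_add_le ?_ ?_) ?_
    · exact val_le_mul v hb₄ h12
    · exact val_le_mul v hb₆ (val_le_mul v hsum h12)
    · exact val_le_mul v hb₈ (val_le_mul v h12' h12)

lemma val_SPoly {c : Γ₀} (hc : c < 1) {t₁ t₂ : K} (h₁ : v t₁ ≤ c) (h₂ : v t₂ ≤ c) :
    v (SPoly W t₁ t₂) ≤ c := by
  have hc1 : c ≤ 1 := hc.le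
  have hM := val_MPoly v hb₄ hb₆ hb₈ hc h₁ h₂
  have hS := val_SPoly_sub v hb₂ hb₄ hb₆ hb₈ hc h₁ h₂
  have hcc : c ^ 2 ≤ c := by
    rw [pow_two]
    calc c * c ≤ 1 * c := mul_le_mul' hc1 le_rfl
      _ = c := one_mul c
  have e : SPoly W t₁ t₂ = (SPoly W t₁ t₂ - 2 * (t₁ + t₂) * MPoly W t₁ t₂)
      + 2 * ((t₁ + t₂) * MPoly W t₁ t₂) := by ring
  rw [e]
  refine v.map_add_le (hS.trans hcc) ?_
  refine val_le_mul v (val_two_le v) ?_
  rw [mul_comm]
  exact val_le_mul v hM.le (v.map_add_le h₁ h₂)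

/-- The main step: on the set `{P good, v (t P) ≤ c}` (with `c < 1`), sums and differences stay in
the set and `t` satisfies the parallelogram law modulo `c ^ 2`. -/
theorem step {c : Γ₀} (hc : c < 1) {P Q : W.Point} (hP : Good P) (hQ : Good Q)
    (h₁ : v (pt P) ≤ c) (h₂ : v (pt Q) ≤ c) :
    Good (P + Q) ∧ Good (P - Q) ∧ v (pt (P + Q)) ≤ c ∧ v (pt (P - Q)) ≤ c ∧
      v (pt (P + Q) + pt (P - Q) - 2 * pt P - 2 * pt Q) ≤ c ^ 2 := by
  have hM := val_MPoly v hb₄ hb₆ hb₈ hc h₁ h₂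
  have hM0 : MPoly W (pt P) (pt Q) ≠ 0 := by
    intro h0; rw [h0, map_zero] at hM; exact zero_ne_one hM
  obtain ⟨hG₁, hG₂, hsum, hprod⟩ := pt_add_sub P Q hP hQ hM0
  have hS := val_SPoly v hb₂ hb₄ hb₆ hb₈ hc h₁ h₂
  have hSs := val_SPoly_sub v hb₂ hb₄ hb₆ hb₈ hc h₁ h₂
  -- valuation of the sum
  have hvs : v (pt (P + Q) + pt (P - Q)) ≤ c := by
    have := congrArg v hsum
    rw [map_mul, hM, mul_one] at this
    rw [this]; exact hS
  -- valuation of the product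
  have hvp : v (pt (P + Q)) * v (pt (P - Q)) ≤ c ^ 2 := by
    have := congrArg v hprod
    rw [map_mul, hM, mul_one, map_mul, map_pow] at this
    rw [this]
    exact pow_le_pow_left' (v.map_sub_le h₁ h₂) 2
  have key : ∀ a b : K, v (a + b) ≤ c → v a * v b ≤ c ^ 2 → v a ≤ c := by
    intro a b hab hmul
    by_contra hlt
    rw [not_le] at hlt
    have hb : v b = v a := by
      have e : b = (a + b) - a := by ring
      rw [e, Valuation.map_sub_swap]
      have : v (a + b) < v a := lt_of_le_of_lt hab hlt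
      rw [sub_eq_add_neg]
      have h3 : v (-(a + b)) < v a := by rwa [Valuation.map_neg]
      exact Valuation.map_add_eq_of_lt_left v h3
    rw [hb, ← pow_two] at hmul
    have hpos : c ^ 2 < v a ^ 2 := pow_lt_pow_left₀ hlt zero_le (by norm_num)
    exact absurd hmul (not_le.mpr hpos)
  have hv₁ : v (pt (P + Q)) ≤ c := key (pt (P + Q)) (pt (P - Q)) hvs hvp
  have hv₂ : v (pt (P - Q)) ≤ c := by
    refine key (pt (P - Q)) (pt (P + Q)) ?_ ?_
    · rw [add_comm]; exact hvs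
    · rw [mul_comm]; exact hvp
  refine ⟨hG₁, hG₂, hv₁, hv₂, ?_⟩
  have e : (pt (P + Q) + pt (P - Q) - 2 * pt P - 2 * pt Q) * MPoly W (pt P) (pt Q) =
      SPoly W (pt P) (pt Q) - 2 * (pt P + pt Q) * MPoly W (pt P) (pt Q) := by
    rw [← hsum]; ring
  have := congrArg v e
  rw [map_mul, hM, mul_one] at this
  rw [this]; exact hSs

/-- Two-step induction: `t (j • P) ≡ j² t(P)` modulo `c²`, where `c = v (t P) < 1`. -/
theorem pt_nsmul {P : W.Point} (hP : Good P) (hc : v (pt P) < 1) (j : ℕ) :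
    (Good (j • P) ∧ v (pt (j • P) - (j : K) ^ 2 * pt P) ≤ v (pt P) ^ 2) ∧
    (Good ((j + 1) • P) ∧ v (pt ((j + 1) • P) - ((j + 1 : ℕ) : K) ^ 2 * pt P) ≤ v (pt P) ^ 2) := by
  induction j with
  | zero =>
    refine ⟨⟨?_, ?_⟩, ⟨?_, ?_⟩⟩
    · rw [zero_smul]; exact good_zero
    · simp
    · rw [zero_add, one_smul]; exact hP
    · simp
  | succ j ih =>
    obtain ⟨⟨hG0, hv0⟩, ⟨hG1, hv1⟩⟩ := ih
    refine ⟨⟨hG1, hv1⟩, ?_⟩
    set c := v (pt P) with hcdef
    have hcc : c ^ 2 ≤ c := sq_le_self_of_le_one hc.le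
    -- v (pt ((j+1) • P)) ≤ c
    have hvj1 : v (pt ((j + 1) • P)) ≤ c := by
      have e : pt ((j + 1) • P) = (pt ((j + 1) • P) - ((j + 1 : ℕ) : K) ^ 2 * pt P)
          + ((j + 1 : ℕ) : K) ^ 2 * pt P := by ring
      rw [e]
      refine v.map_add_le (hv1.trans hcc) ?_
      refine val_le_mul v ?_ le_rfl
      rw [map_pow]
      exact pow_le_one' (val_natCast_le v (j + 1)) 2
    obtain ⟨hGa, -, -, -, hpar⟩ :=
      step v hb₂ hb₄ hb₆ hb₈ hc hG1 hP hvj1 (le_refl c)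
    have e1 : (j + 1) • P + P = (j + 1 + 1) • P := (succ_nsmul P (j + 1)).symm
    have e2 : (j + 1) • P - P = j • P := by
      rw [succ_nsmul]; abel
    rw [e1, e2] at hpar
    rw [e1] at hGa
    refine ⟨hGa, ?_⟩
    have e : pt ((j + 1 + 1) • P) - ((j + 1 + 1 : ℕ) : K) ^ 2 * pt P =
        (pt ((j + 1 + 1) • P) + pt (j • P) - 2 * pt ((j + 1) • P) - 2 * pt P)
        - (pt (j • P) - (j : K) ^ 2 * pt P)
        + 2 * (pt ((j + 1) • P) - ((j + 1 : ℕ) : K) ^ 2 * pt P) := by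
      push_cast; ring
    rw [e]
    refine v.map_add_le (v.map_sub_le hpar hv0) ?_
    exact val_le_mul v (val_two_le v) hv1

/-- `G1` is stable under addition. -/
theorem inG1_add {P Q : W.Point} (hP : InG1 v P) (hQ : InG1 v Q) : InG1 v (P + Q) := by
  rw [inG1_iff] at hP hQ ⊢
  obtain ⟨hGP, hvP⟩ := hP
  obtain ⟨hGQ, hvQ⟩ := hQ
  have hc : max (v (pt P)) (v (pt Q)) < 1 := max_lt hvP hvQ
  obtain ⟨hG, -, hv, -, -⟩ :=
    step v hb₂ hb₄ hb₆ hb₈ hc hGP hGQ (le_max_left _ _) (le_max_right _ _)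
  exact ⟨hG, lt_of_le_of_lt hv hc⟩

/-- `G1` is stable under subtraction. -/
theorem inG1_sub {P Q : W.Point} (hP : InG1 v P) (hQ : InG1 v Q) : InG1 v (P - Q) := by
  rw [sub_eq_add_neg]
  exact inG1_add v hb₂ hb₄ hb₆ hb₈ hP (inG1_neg v hQ)

/-- The kernel of reduction has no `n`-torsion for `n` a unit at `v`. -/
theorem inG1_torsion_free {n : ℕ} (hn : v (n : K) = 1) {P : W.Point} (hP : InG1 v P)
    (hnP : n • P = 0) : P = 0 := by
  by_contra hP0
  rw [inG1_iff] at hP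
  obtain ⟨hG, hc⟩ := hP
  have hx : px P ≠ 0 := hG.resolve_left hP0
  have ht : pt P ≠ 0 := inv_ne_zero hx
  have hc0 : v (pt P) ≠ 0 := (Valuation.ne_zero_iff v).mpr ht
  obtain ⟨⟨-, hv⟩, -⟩ := pt_nsmul v hb₂ hb₄ hb₆ hb₈ hG hc n
  rw [hnP, pt_zero, zero_sub, Valuation.map_neg, map_mul, map_pow, hn, one_pow, one_mul] at hv
  -- hv : c ≤ c ^ 2 with 0 < c < 1
  have hlt : v (pt P) ^ 2 < v (pt P) := by
    rw [pow_two]
    calc v (pt P) * v (pt P) < 1 * v (pt P) :=
          mul_lt_mul_of_pos_right hc (zero_lt_iff.mpr hc0)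
      _ = v (pt P) := one_mul _
  exact absurd hv (not_le.mpr hlt)

end Core

end Val

end S05H75
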