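/-
S05 (helper75): explicit local data of the Frey curve at an odd prime `q`.

* `frey_coeff_integral` : the coefficients of the Frey curve are `v`-integral;
* `frey_good`           : if `q ∤ abc` (and `q ≠ 2`) then `Δ` is a `v`-unit;
* `frey_nodal`          : if `q ∣ abc` (and `q ≠ 2`) then the Frey curve has an explicit
                          split nodal shape: `b₂ = b - 3s`, `8 b₄ = 3s² - 2sb - d²`,
                          `16 b₆ = (s² - d²)(b - s)` with `b` a unit, `s` integral and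
                          `d` of valuation `v(e)^p`, `v(e) < 1`.
-/
import Mathlib
import Fermat.Agent.MUL.Orig.Lib.Frey.Basic
import Fermat.Agent.MUL.Orig.S05.H5.IntVal
import Fermat.Agent.MUL.E.Desc.Main2Defs

set_option autoImplicit false

namespace S05H75

open WeierstrassCurve Fermat.Agent.FreyLib S05H5

variable {K : Type*} [Field K] [Algebra ℚ K] {Γ₀ : Type*} [LinearOrderedCommGroupWithZero Γ₀]

/-- The base change of the Frey curve to `K` is the image of the integral Frey curve. -/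
theorem frey_baseChange_eq (P : FreyPackage) :
    (P.freyCurve⁄K) = P.freyCurveInt.map (Int.castRingHom K) := by
  rw [← freyCurveInt_map P]
  show (P.freyCurveInt.map (Int.castRingHom ℚ)).map (algebraMap ℚ K) = _
  rw [WeierstrassCurve.map_map]
  congr 1
  exact RingHom.ext_int _ _

theorem frey_coeff_integral (P : FreyPackage) (v : Valuation K Γ₀) :
    v (P.freyCurve⁄K).a₁ ≤ 1 ∧ v (P.freyCurve⁄K).a₂ ≤ 1 ∧ v (P.freyCurve⁄K).a₃ ≤ 1 ∧
    v (P.freyCurve⁄K).a₄ ≤ 1 ∧ v (P.freyCurve⁄K).a₆ ≤ 1 := by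
  rw [frey_baseChange_eq P]
  simp only [map_a₁, map_a₂, map_a₃, map_a₄, map_a₆, eq_intCast]
  exact ⟨vle_intCast v _, vle_intCast v _, vle_intCast v _, vle_intCast v _, vle_intCast v _⟩

theorem frey_good (P : FreyPackage) (v : Valuation K Γ₀) {q : ℕ} (hq : q.Prime) (hq2 : q ≠ 2)
    (hvq : v (q : K) < 1) (hnd : ¬ (q : ℤ) ∣ P.a * P.b * P.c) : ¬ v (P.freyCurve⁄K).Δ < 1 := by
  have _ := hq2
  rw [frey_baseChange_eq P, map_Δ, eq_intCast]
  have h : ¬ (q : ℤ) ∣ P.freyCurveInt.Δ := fun h => hnd (dvd_abc_of_dvd_Δ P hq h)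
  rw [v_intCast_eq_one v hq hvq h]
  exact lt_irrefl _

/-- `algebraMap ℚ K` of an integer. -/
theorem algebraMap_intCast_rat (n : ℤ) : algebraMap ℚ K (n : ℚ) = (n : K) :=
  map_intCast (algebraMap ℚ K) n

/-- valuation of `algebraMap ℚ K (n / 2)` when `v 2 = 1`. -/
theorem v_algebraMap_half (v : Valuation K Γ₀) (h2 : v (2 : K) = 1) (n : ℤ) :
    v (algebraMap ℚ K ((n : ℚ) / 2)) = v (n : K) := by
  rw [map_div₀, map_div₀, algebraMap_intCast_rat, map_ofNat, h2, div_one]

theorem frey_not_dvd_of_gcd_one {x y : ℤ} (h : gcd x y = 1) {q : ℤ} (hq : Prime q)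
    (hx : q ∣ x) (hy : q ∣ y) : False := by
  have : q ∣ gcd x y := dvd_gcd hx hy
  rw [h] at this
  exact hq.not_dvd_one this

theorem frey_nodal (P : FreyPackage) (v : Valuation K Γ₀) {q : ℕ} (hq : q.Prime) (hq2 : q ≠ 2)
    (hvq : v (q : K) < 1) (hd : (q : ℤ) ∣ P.a * P.b * P.c) :
    ∃ s d b e : ℚ,
      (P.freyCurve⁄K).b₂ = algebraMap ℚ K b - 3 * algebraMap ℚ K s ∧
      8 * (P.freyCurve⁄K).b₄ =
        3 * algebraMap ℚ K s ^ 2 - 2 * algebraMap ℚ K s * algebraMap ℚ K b
          - algebraMap ℚ K d ^ 2 ∧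
      16 * (P.freyCurve⁄K).b₆ =
        (algebraMap ℚ K s ^ 2 - algebraMap ℚ K d ^ 2) * (algebraMap ℚ K b - algebraMap ℚ K s) ∧
      v (algebraMap ℚ K b) = 1 ∧ v (algebraMap ℚ K s) ≤ 1 ∧
      v (algebraMap ℚ K d) = v (algebraMap ℚ K e) ^ P.p ∧ v (algebraMap ℚ K e) < 1 ∧ e ≠ 0 := by
  have hq' : Prime (q : ℤ) := Nat.prime_iff_prime_int.mp hq
  have h2 : v (2 : K) = 1 := v_two_eq_one v hq hvq hq2
  have hq2' : ¬ (q : ℤ) ∣ 2 := by
    intro h
    have h5 : q ∣ 2 := by exact_mod_cast h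
    exact hq2 ((Nat.prime_dvd_prime_iff_eq hq Nat.prime_two).1 h5)
  -- the invariants of the base change
  have hb₂ : (P.freyCurve⁄K).b₂ = ((P.b ^ P.p - P.a ^ P.p : ℤ) : K) := by
    rw [frey_baseChange_eq P, map_b₂, eq_intCast, freyCurveInt_b₂]
  have hb₄ : 8 * (P.freyCurve⁄K).b₄ = ((-(P.a ^ P.p) * (P.b ^ P.p) : ℤ) : K) := by
    rw [frey_baseChange_eq P, map_b₄, eq_intCast, ← eight_mul_b₄ P]
    push_cast
    ring
  have hb₆ : (P.freyCurve⁄K).b₆ = 0 := by
    rw [frey_baseChange_eq P, map_b₆, eq_intCast, freyCurveInt_b₆, Int.cast_zero]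
  have hFLT : ((P.a : K)) ^ P.p + (P.b : K) ^ P.p = (P.c : K) ^ P.p := by
    exact_mod_cast congrArg (fun z : ℤ => (z : K)) P.hFLT
  have h2K : (2 : K) ≠ 0 := by
    intro h
    rw [h, map_zero] at h2
    exact zero_ne_one h2
  -- the three cases
  rcases hq'.dvd_or_dvd hd with hab | hc
  · rcases hq'.dvd_or_dvd hab with ha | hb
    · -- q ∣ a
      have hnb : ¬ (q : ℤ) ∣ P.b := fun hb => frey_not_dvd_of_gcd_one P.hgcdab hq' ha hb
      have hunit : ¬ (q : ℤ) ∣ 2 * P.b ^ P.p + P.a ^ P.p := by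
        intro h
        have h1 : (q : ℤ) ∣ P.a ^ P.p := dvd_pow ha P.hp0
        have h3 : (q : ℤ) ∣ 2 * P.b ^ P.p := (dvd_add_left h1).mp h
        rcases hq'.dvd_or_dvd h3 with h4 | h4
        · exact hq2' h4
        · exact hnb (hq'.dvd_of_dvd_pow h4)
      refine ⟨((P.a ^ P.p : ℤ) : ℚ) / 2, ((P.a ^ P.p : ℤ) : ℚ) / 2,
        ((2 * P.b ^ P.p + P.a ^ P.p : ℤ) : ℚ) / 2, (P.a : ℚ), ?_, ?_, ?_, ?_, ?_, ?_, ?_, ?_⟩
      · rw [hb₂]
        simp only [map_div₀, algebraMap_intCast_rat, map_ofNat]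
        push_cast
        field_simp
        ring
      · rw [hb₄]
        simp only [map_div₀, algebraMap_intCast_rat, map_ofNat]
        push_cast
        field_simp
        ring
      · rw [hb₆]
        simp only [map_div₀, algebraMap_intCast_rat, map_ofNat]
        ring
      · rw [v_algebraMap_half v h2]
        exact v_intCast_eq_one v hq hvq hunit
      · rw [v_algebraMap_half v h2]
        exact vle_intCast v _
      · rw [v_algebraMap_half v h2, algebraMap_intCast_rat]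
        push_cast
        rw [map_pow]
      · rw [algebraMap_intCast_rat]
        exact v_intCast_lt_one v hvq ha
      · exact_mod_cast P.ha0
    · -- q ∣ b
      have hna : ¬ (q : ℤ) ∣ P.a := fun ha => frey_not_dvd_of_gcd_one P.hgcdab hq' ha hb
      have hunit : ¬ (q : ℤ) ∣ -(2 * P.a ^ P.p + P.b ^ P.p) := by
        intro h
        rw [dvd_neg] at h
        have h1 : (q : ℤ) ∣ P.b ^ P.p := dvd_pow hb P.hp0
        have h3 : (q : ℤ) ∣ 2 * P.a ^ P.p := (dvd_add_left h1).mp h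
        rcases hq'.dvd_or_dvd h3 with h4 | h4
        · exact hq2' h4
        · exact hna (hq'.dvd_of_dvd_pow h4)
      refine ⟨((-(P.b ^ P.p) : ℤ) : ℚ) / 2, ((P.b ^ P.p : ℤ) : ℚ) / 2,
        ((-(2 * P.a ^ P.p + P.b ^ P.p) : ℤ) : ℚ) / 2, (P.b : ℚ), ?_, ?_, ?_, ?_, ?_, ?_, ?_, ?_⟩
      · rw [hb₂]
        simp only [map_div₀, algebraMap_intCast_rat, map_ofNat]
        push_cast
        field_simp
        ring
      · rw [hb₄]
        simp only [map_div₀, algebraMap_intCast_rat, map_ofNat]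
        push_cast
        field_simp
        ring
      · rw [hb₆]
        simp only [map_div₀, algebraMap_intCast_rat, map_ofNat]
        push_cast
        ring
      · rw [v_algebraMap_half v h2]
        exact v_intCast_eq_one v hq hvq hunit
      · rw [v_algebraMap_half v h2]
        exact vle_intCast v _
      · rw [v_algebraMap_half v h2, algebraMap_intCast_rat]
        push_cast
        rw [map_pow]
      · rw [algebraMap_intCast_rat]
        exact v_intCast_lt_one v hvq hb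
      · exact_mod_cast P.hb0
  · -- q ∣ c
    have hnb : ¬ (q : ℤ) ∣ P.b := fun hb => frey_not_dvd_of_gcd_one P.hgcdbc hq' hb hc
    have hunit : ¬ (q : ℤ) ∣ P.a ^ P.p - P.b ^ P.p := by
      intro h
      have h1 : (q : ℤ) ∣ P.c ^ P.p := dvd_pow hc P.hp0
      have h0 : P.a ^ P.p - P.b ^ P.p = P.c ^ P.p - 2 * P.b ^ P.p := by
        rw [← P.hFLT]; ring
      rw [h0] at h
      have h3 : (q : ℤ) ∣ 2 * P.b ^ P.p := (dvd_sub_right h1).mp h
      rcases hq'.dvd_or_dvd h3 with h4 | h4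
      · exact hq2' h4
      · exact hnb (hq'.dvd_of_dvd_pow h4)
    refine ⟨((P.a ^ P.p - P.b ^ P.p : ℤ) : ℚ) / 2, ((P.c ^ P.p : ℤ) : ℚ) / 2,
      ((P.a ^ P.p - P.b ^ P.p : ℤ) : ℚ) / 2, (P.c : ℚ), ?_, ?_, ?_, ?_, ?_, ?_, ?_, ?_⟩
    · rw [hb₂]
      simp only [map_div₀, algebraMap_intCast_rat, map_ofNat]
      push_cast
      field_simp
      ring
    · rw [hb₄]
      simp only [map_div₀, algebraMap_intCast_rat, map_ofNat]
      push_cast
      rw [← hFLT]
      field_simp
      ring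
    · rw [hb₆]
      simp only [map_div₀, algebraMap_intCast_rat, map_ofNat]
      ring
    · rw [v_algebraMap_half v h2]
      exact v_intCast_eq_one v hq hvq hunit
    · rw [v_algebraMap_half v h2]
      exact vle_intCast v _
    · rw [v_algebraMap_half v h2, algebraMap_intCast_rat]
      push_cast
      rw [map_pow]
    · rw [algebraMap_intCast_rat]
      exact v_intCast_lt_one v hvq hc
    · exact_mod_cast P.hc0

end S05H75
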